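import Mathlib.NumberTheory.LSeries.Dirichlet
import Mathlib.Analysis.Calculus.MeanValue
import Mathlib.Analysis.SpecialFunctions.Pow.Deriv
import Mathlib.Analysis.PSeries
import Mathlib.Analysis.Complex.LocallyUniformLimit

/-!
# The Dirichlet series of the partial sums

If `∑_{k ≤ n} a k = O (n ^ θ)` the series of `A n * n ^ (-(z + 1))` is `(L (a, z) + E z) / z` with
`E` holomorphic in `θ - 1 < re z` and `E 0 = 0`.
-/

set_option autoImplicit false

noncomputable section

open Complex Filter Topology Set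

namespace FA.OneSided

/-- The partial sums of `a`. -/
def summatory (a : ℕ → ℂ) (n : ℕ) : ℂ := ∑ k ∈ Finset.Icc 1 n, a k

theorem summatory_zero (a : ℕ → ℂ) : summatory a 0 = 0 := by simp [summatory]

theorem summatory_succ (a : ℕ → ℂ) (n : ℕ) :
    summatory a (n + 1) = summatory a n + a (n + 1) :=
  Finset.sum_Icc_succ_top (by omega) _

/-- The deviation of `z n ^ (-(z + 1))` from `n ^ (-z) - (n + 1) ^ (-z)`. -/
def step (n : ℕ) (z : ℂ) : ℂ :=
  z * (n : ℂ) ^ (-(z + 1)) - ((n : ℂ) ^ (-z) - ((n : ℂ) + 1) ^ (-z))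

theorem step_zero_right (n : ℕ) : step n 0 = 0 := by simp [step]

theorem norm_cpow_sub_le {n : ℕ} (hn : 0 < n) {z : ℂ} (hz : -1 < z.re) {t : ℝ}
    (ht : t ∈ Icc (n : ℝ) (n + 1)) :
    ‖(t : ℂ) ^ (-(z + 1)) - ((n : ℝ) : ℂ) ^ (-(z + 1))‖ ≤
      ‖z + 1‖ * (n : ℝ) ^ (-z.re - 2) := by
  have hn' : (0 : ℝ) < n := Nat.cast_pos.2 hn
  have hz1 : -(z + 1) ≠ 0 := fun h => by
    have := congrArg Complex.re h
    simp at this
    linarith
  have hd : ∀ u ∈ Icc (n : ℝ) (n + 1), HasDerivWithinAt (fun y : ℝ => (y : ℂ) ^ (-(z + 1)))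
      (-(z + 1) * (u : ℂ) ^ (-(z + 1) - 1)) (Icc (n : ℝ) (n + 1)) u := fun u hu =>
    (hasDerivAt_ofReal_cpow_const (hn'.trans_le hu.1).ne' hz1).hasDerivWithinAt
  have hb : ∀ u ∈ Ico (n : ℝ) (n + 1), ‖-(z + 1) * (u : ℂ) ^ (-(z + 1) - 1)‖ ≤
      ‖z + 1‖ * (n : ℝ) ^ (-z.re - 2) := fun u hu => by
    rw [norm_mul, norm_neg, norm_cpow_eq_rpow_re_of_pos (hn'.trans_le hu.1)]
    refine mul_le_mul_of_nonneg_left ?_ (norm_nonneg _)
    rw [show (-(z + 1) - 1).re = -z.re - 2 by simp; ring]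
    exact Real.rpow_le_rpow_of_nonpos hn' hu.1 (by linarith)
  refine (norm_image_sub_le_of_norm_deriv_le_segment' hd hb t ht).trans ?_
  exact mul_le_of_le_one_right (by positivity) (by linarith [ht.2])

theorem norm_step_le {n : ℕ} (hn : 0 < n) {z : ℂ} (hz : -1 < z.re) :
    ‖step n z‖ ≤ ‖z‖ * (‖z + 1‖ * (n : ℝ) ^ (-z.re - 2)) := by
  rcases eq_or_ne z 0 with rfl | hz0
  · simp [step_zero_right]
  have hn' : (0 : ℝ) < n := Nat.cast_pos.2 hn
  set φ : ℝ → ℂ := fun t => -(t : ℂ) ^ (-z) / z - (t : ℂ) * ((n : ℝ) : ℂ) ^ (-(z + 1)) with hφ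
  have hd : ∀ u ∈ Icc (n : ℝ) (n + 1), HasDerivWithinAt φ
      ((u : ℂ) ^ (-(z + 1)) - ((n : ℝ) : ℂ) ^ (-(z + 1))) (Icc (n : ℝ) (n + 1)) u := fun u hu => by
    refine HasDerivAt.hasDerivWithinAt ?_
    have h1 := ((hasDerivAt_ofReal_cpow_const (hn'.trans_le hu.1).ne'
      (neg_ne_zero.2 hz0)).neg.div_const z).sub
      ((Complex.ofRealCLM.hasDerivAt (x := u)).mul_const (((n : ℝ) : ℂ) ^ (-(z + 1))))
    refine h1.congr_deriv ?_
    rw [Complex.ofRealCLM_apply, Complex.ofReal_one, one_mul,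
      show -z - 1 = -(z + 1) by ring]
    field_simp
  have h := norm_image_sub_le_of_norm_deriv_le_segment' hd
    (fun u hu => norm_cpow_sub_le hn hz (Ico_subset_Icc_self hu)) ((n : ℝ) + 1)
    (right_mem_Icc.2 (le_add_of_nonneg_right zero_le_one))
  rw [add_sub_cancel_left, mul_one] at h
  have e : step n z = -(z * (φ ((n : ℝ) + 1) - φ n)) := by
    simp only [hφ, step]
    push_cast
    field_simp
    ring
  rw [e, norm_neg, norm_mul]
  exact mul_le_mul_of_nonneg_left h (norm_nonneg _)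

/-- `E z = ∑ A n * step n z`. -/
def defect (a : ℕ → ℂ) (z : ℂ) : ℂ := ∑' n : ℕ, summatory a n * step n z

theorem defect_zero (a : ℕ → ℂ) : defect a 0 = 0 := by simp [defect, step_zero_right]

variable {a : ℕ → ℂ} {K θ : ℝ}

theorem norm_summand_le (hA : ∀ n : ℕ, 0 < n → ‖summatory a n‖ ≤ K * (n : ℝ) ^ θ) (n : ℕ) {z : ℂ}
    {δ : ℝ} (hδ : 0 < δ) (hz : θ - 1 + δ ≤ z.re) (hz1 : -1 < z.re) :
    ‖summatory a n * step n z‖ ≤ max K 0 * (‖z‖ * ‖z + 1‖) * (n : ℝ) ^ (-1 - δ) := by
  rcases Nat.eq_zero_or_pos n with rfl | hn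
  · simp [summatory_zero, Real.zero_rpow (show -1 - δ ≠ 0 by linarith)]
  have hn1 : (1 : ℝ) ≤ n := Nat.one_le_cast.2 hn
  rw [norm_mul]
  refine (mul_le_mul
    ((hA n hn).trans (mul_le_mul_of_nonneg_right (le_max_left K 0) (by positivity)))
    (norm_step_le hn hz1) (norm_nonneg _) (by positivity)).trans ?_
  rw [show max K 0 * (n : ℝ) ^ θ * (‖z‖ * (‖z + 1‖ * (n : ℝ) ^ (-z.re - 2))) =
    max K 0 * (‖z‖ * ‖z + 1‖) * ((n : ℝ) ^ θ * (n : ℝ) ^ (-z.re - 2)) by ring,
    ← Real.rpow_add (by linarith)]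
  exact mul_le_mul_of_nonneg_left (Real.rpow_le_rpow_of_exponent_le hn1 (by linarith))
    (by positivity)

theorem summable_summand (hA : ∀ n : ℕ, 0 < n → ‖summatory a n‖ ≤ K * (n : ℝ) ^ θ) {z : ℂ}
    (hz : θ - 1 < z.re) (hz1 : -1 < z.re) :
    Summable fun n : ℕ => summatory a n * step n z :=
  Summable.of_norm_bounded
    ((Real.summable_nat_rpow.2 (by linarith : -1 - (z.re - (θ - 1)) < -1)).mul_left _)
    fun n => norm_summand_le hA n (by linarith) (by linarith) hz1

theorem differentiableOn_defect (hA : ∀ n : ℕ, 0 < n → ‖summatory a n‖ ≤ K * (n : ℝ) ^ θ)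
    (hθ : 0 ≤ θ) : DifferentiableOn ℂ (defect a) {z | θ - 1 < z.re} := by
  intro z hz
  have hz' : θ - 1 < z.re := hz
  set δ := (z.re - (θ - 1)) / 2 with hδ
  have hδ0 : 0 < δ := by linarith
  set U : Set ℂ := {w | θ - 1 + δ < w.re} ∩ Metric.ball 0 (‖z‖ + 1)
  have hU : IsOpen U := (isOpen_lt continuous_const continuous_re).inter Metric.isOpen_ball
  have hzU : z ∈ U := ⟨show θ - 1 + δ < z.re by linarith, by simp⟩
  have hd : DifferentiableOn ℂ (defect a) U := by
    refine differentiableOn_tsum_of_summable_norm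
      ((Real.summable_nat_rpow.2 (by linarith : -1 - δ < -1)).mul_left
        (max K 0 * ((‖z‖ + 1) * (‖z‖ + 2)))) (fun n => ?_) hU fun n w hw => ?_
    · rcases Nat.eq_zero_or_pos n with rfl | hn
      · simp only [summatory_zero, zero_mul]; exact differentiableOn_const 0
      intro w hw
      have hn0 : (n : ℂ) ≠ 0 := Nat.cast_ne_zero.2 hn.ne'
      have hn1 : (n : ℂ) + 1 ≠ 0 := by exact_mod_cast n.succ_ne_zero
      refine DifferentiableAt.differentiableWithinAt ?_
      exact ((differentiableAt_id.mul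
        ((differentiableAt_id.add_const 1).neg.const_cpow (Or.inl hn0))).sub
        ((differentiableAt_id.neg.const_cpow (Or.inl hn0)).sub
          (differentiableAt_id.neg.const_cpow (Or.inl hn1)))).const_mul _
    · have hw' : θ - 1 + δ < w.re := hw.1
      refine (norm_summand_le hA n hδ0 hw'.le (by linarith)).trans ?_
      refine mul_le_mul_of_nonneg_right (mul_le_mul_of_nonneg_left ?_ (le_max_right _ _))
        (by positivity)
      have := mem_ball_zero_iff.1 hw.2
      exact mul_le_mul this.le ((norm_add_le w 1).trans (by rw [norm_one]; linarith))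
        (norm_nonneg _) (by positivity)
  exact ((hd.differentiableAt (hU.mem_nhds hzU))).differentiableWithinAt

theorem sum_range_abel (a : ℕ → ℂ) (z : ℂ) (N : ℕ) :
    ∑ n ∈ Finset.range (N + 1), summatory a n * ((n : ℂ) ^ (-z) - ((n : ℂ) + 1) ^ (-z)) =
      (∑ n ∈ Finset.range (N + 1), LSeries.term a z n) -
        summatory a N * ((N : ℂ) + 1) ^ (-z) := by
  induction N with
  | zero => simp [summatory_zero]
  | succ k ih =>
    rw [Finset.sum_range_succ, ih, Finset.sum_range_succ (n := k + 1),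
      LSeries.term_of_ne_zero (Nat.succ_ne_zero k), summatory_succ, div_eq_mul_inv, ← cpow_neg]
    push_cast
    ring

/-- **The Dirichlet series of the partial sums.** -/
theorem hasSum_summatory (hA : ∀ n : ℕ, 0 < n → ‖summatory a n‖ ≤ K * (n : ℝ) ^ θ)
    (hθ0 : 0 ≤ θ) (hθ : θ ≤ 1) {z : ℂ} (hz : 1 < z.re) (hL : LSeriesSummable a z) :
    HasSum (fun n : ℕ => summatory a n * (n : ℂ) ^ (-(z + 1)))
      ((LSeries a z + defect a z) / z) := by
  have hz0 : z ≠ 0 := fun h => by simp [h] at hz; linarith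
  have hE := summable_summand hA (show θ - 1 < z.re by linarith) (show -1 < z.re by linarith)
  have hsum : Summable fun n : ℕ => summatory a n * (n : ℂ) ^ (-(z + 1)) := by
    refine Summable.of_norm_bounded
      ((Real.summable_nat_rpow.2 (by linarith : θ - z.re - 1 < -1)).mul_left (max K 0)) fun n => ?_
    rcases Nat.eq_zero_or_pos n with rfl | hn
    · simp [summatory_zero, Real.zero_rpow (show θ - z.re - 1 ≠ 0 by linarith)]
    have hn' : (0 : ℝ) < n := Nat.cast_pos.2 hn
    rw [norm_mul, norm_natCast_cpow_of_pos hn]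
    refine (mul_le_mul_of_nonneg_right ((hA n hn).trans (mul_le_mul_of_nonneg_right
      (le_max_left K 0) (by positivity))) (by positivity)).trans (le_of_eq ?_)
    rw [mul_assoc, ← Real.rpow_add hn']
    congr 2
    simp
    ring
  have hA' : Summable fun n : ℕ =>
      summatory a n * ((n : ℂ) ^ (-z) - ((n : ℂ) + 1) ^ (-z)) := by
    refine ((hsum.mul_left z).sub hE).congr fun n => ?_
    rw [step]
    ring
  have hzero : Tendsto (fun N : ℕ => summatory a N * ((N : ℂ) + 1) ^ (-z)) atTop (𝓝 0) := by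
    refine squeeze_zero_norm (a := fun N : ℕ => max K 0 * ((N : ℝ) + 1) ^ (-(z.re - θ)))
      (fun N => ?_) ?_
    · have h0 : (0 : ℝ) < (N : ℝ) + 1 := by positivity
      rw [norm_mul, show (N : ℂ) + 1 = (((N : ℝ) + 1 : ℝ) : ℂ) by push_cast; ring,
        norm_cpow_eq_rpow_re_of_pos h0, neg_re]
      rcases Nat.eq_zero_or_pos N with rfl | hN
      · simp [summatory_zero]
      refine (mul_le_mul_of_nonneg_right ((hA N hN).trans (mul_le_mul (le_max_left K 0)
        (Real.rpow_le_rpow (Nat.cast_nonneg N) (le_add_of_nonneg_right zero_le_one) hθ0)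
        (by positivity) (le_max_right _ _))) (by positivity)).trans (le_of_eq ?_)
      rw [mul_assoc, ← Real.rpow_add h0]
      ring_nf
    · have := ((tendsto_rpow_neg_atTop (by linarith : 0 < z.re - θ)).comp
        (tendsto_atTop_add_const_right atTop 1 tendsto_natCast_atTop_atTop)).const_mul (max K 0)
      simpa [Function.comp_def] using this
  have hAval : ∑' n, summatory a n * ((n : ℂ) ^ (-z) - ((n : ℂ) + 1) ^ (-z)) = LSeries a z := by
    refine tendsto_nhds_unique
      ((hA'.hasSum.tendsto_sum_nat).comp (tendsto_add_atTop_nat 1)) ?_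
    have h := ((hL.LSeriesHasSum.tendsto_sum_nat).comp (tendsto_add_atTop_nat 1)).sub hzero
    rw [sub_zero] at h
    refine h.congr fun N => ?_
    simp only [Function.comp_apply]
    rw [← sum_range_abel]
  rw [← hAval]
  refine ((hA'.hasSum.add hE.hasSum).div_const z).congr_fun fun n => ?_
  rw [step]
  field_simp
  ring

end FA.OneSided

end
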