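import Fermat.Agent.Signs.Landau
import Mathlib.NumberTheory.LSeries.RiemannZeta
import Mathlib.NumberTheory.Harmonic.ZetaAsymp

/-!
# Landau's theorem for a one-sided bound

A one-sided bound `e A n ≤ C n ^ γ`, where the Dirichlet series of `A` is `Gn / Gd + R`, makes
every zero of `Gd` in `γ < re z` a zero of `Gn`.
-/

set_option autoImplicit false

noncomputable section

open Complex Filter Topology Set
open scoped ComplexOrder

namespace FA.OneSided

/-- **Landau's theorem**: a series with nonnegative coefficients that is a quotient `Num / Den`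
without real poles to the right of `α` converges there. -/
theorem lSeriesSummable_of_nonneg {b : ℕ → ℂ} (hb : 0 ≤ b) {x₀ α : ℝ} {Num Den : ℂ → ℂ}
    (hsum : ∀ w : ℂ, x₀ < w.re → LSeriesSummable b w)
    (hid : ∀ w : ℂ, x₀ < w.re → Den w * LSeries b w = Num w)
    (hN : DifferentiableOn ℂ Num {w | α < w.re}) (hD : DifferentiableOn ℂ Den {w | α < w.re})
    (hD0 : ∀ x : ℝ, α < x → Den x ≠ 0) {w : ℂ} (hw : α < w.re) :
    LSeriesSummable b w ∧ Den w * LSeries b w = Num w := by
  have hUo : ∀ v : ℝ, IsOpen {z : ℂ | v < z.re} := fun v => isOpen_lt continuous_const continuous_re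
  have hident : ∀ v : ℝ, α ≤ v → (∀ z : ℂ, v < z.re → LSeriesSummable b z) →
      ∀ z : ℂ, v < z.re → Den z * LSeries b z = Num z := by
    intro v hv hsv
    have hL : DifferentiableOn ℂ (LSeries b) {z | v < z.re} := fun z hz => by
      have habs : LSeries.abscissaOfAbsConv b < z.re := by
        obtain ⟨u, hu1, hu2⟩ := exists_between (show v < z.re from hz)
        exact (LSeries.abscissaOfAbsConv_le_of_forall_lt_LSeriesSummable (x := u) fun y hy =>
          hsv y (by simp; linarith)).trans_lt (EReal.coe_lt_coe_iff.2 hu2)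
      exact ((LSeries_differentiableOn b).differentiableAt
        ((isOpen_re_gt_EReal _).mem_nhds habs)).differentiableWithinAt
    have hsub : {z : ℂ | v < z.re} ⊆ {z | α < z.re} := fun z hz =>
      show α < z.re from lt_of_le_of_lt hv hz
    have hc : ((max v x₀ + 1 : ℝ) : ℂ) ∈ {z : ℂ | v < z.re} := by
      show v < _
      simp
      linarith [le_max_left v x₀]
    refine AnalyticOnNhd.eqOn_of_preconnected_of_eventuallyEq
      (((hD.mono hsub).mul hL).analyticOnNhd (hUo v)) ((hN.mono hsub).analyticOnNhd (hUo v))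
      (convex_halfSpace_re_gt v).isPreconnected hc ?_
    filter_upwards [(hUo x₀).mem_nhds (show ((max v x₀ + 1 : ℝ) : ℂ) ∈ {z : ℂ | x₀ < z.re} by
      show x₀ < _
      simp
      linarith [le_max_right v x₀])] with z hz using hid z hz
  set S : Set ℝ := {x | α < x ∧ LSeriesSummable b (x : ℂ)} with hS
  have h2 : max x₀ α + 1 ∈ S :=
    ⟨by linarith [le_max_right x₀ α], hsum _ (by simp; linarith [le_max_left x₀ α])⟩
  have hbdd : BddBelow S := ⟨α, fun x hx => hx.1.le⟩
  set v := sInf S with hv
  have hαv : α ≤ v := le_csInf ⟨_, h2⟩ fun x hx => hx.1.le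
  have hsum' : ∀ z : ℂ, v < z.re → LSeriesSummable b z := fun z hz => by
    obtain ⟨x, hx, hxz⟩ := exists_lt_of_csInf_lt ⟨_, h2⟩ hz
    exact hx.2.of_re_le_re (by simpa using hxz.le)
  rcases eq_or_lt_of_le hαv with heq | hlt
  · exact ⟨hsum' w (heq ▸ hw), hident v hαv hsum' w (heq ▸ hw)⟩
  exfalso
  have hnhds : {z : ℂ | α < z.re} ∈ 𝓝 (v : ℂ) :=
    (hUo α).mem_nhds (show α < (v : ℂ).re by simpa using hlt)
  have hev : ∀ᶠ z in 𝓝 (v : ℂ), α < z.re ∧ Den z ≠ 0 :=
    (Filter.eventually_of_mem hnhds fun z hz => hz).and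
      ((hD.differentiableAt hnhds).continuousAt.eventually_ne (hD0 v hlt))
  obtain ⟨ε, hε, hball⟩ := Metric.eventually_nhds_iff.1 hev
  set r := min ε (v - α) with hr
  have hr0 : 0 < r := lt_min hε (by linarith)
  set F : ℂ → ℂ := fun z => if v < z.re then LSeries b z else Num z / Den z with hF
  have hFd : DifferentiableOn ℂ F (Metric.ball ((v + r / 4 : ℝ) : ℂ) (r / 2)) := by
    have hin : ∀ z ∈ Metric.ball ((v + r / 4 : ℝ) : ℂ) (r / 2), α < z.re ∧ Den z ≠ 0 := by
      intro z hz
      refine hball ?_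
      rw [Metric.mem_ball, dist_eq] at hz
      rw [dist_eq]
      calc ‖z - (v : ℂ)‖ = ‖(z - ((v + r / 4 : ℝ) : ℂ)) + ((r / 4 : ℝ) : ℂ)‖ := by
            congr 1; push_cast; ring
        _ ≤ ‖z - ((v + r / 4 : ℝ) : ℂ)‖ + ‖((r / 4 : ℝ) : ℂ)‖ := norm_add_le _ _
        _ < r := by
            rw [Complex.norm_real, Real.norm_of_nonneg (by positivity)]
            linarith
        _ ≤ ε := min_le_left _ _
    refine DifferentiableOn.congr
      ((hN.mono fun z hz => (hin z hz).1).div (hD.mono fun z hz => (hin z hz).1)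
        fun z hz => (hin z hz).2) fun z hz => ?_
    simp only [hF, Pi.div_apply]
    split_ifs with h
    · rw [eq_div_iff (hin z hz).2, mul_comm]
      exact hident v hαv hsum' z h
    · rfl
  set x := v - r / 8
  have hpart := fun T => FA.Signs.sum_term_le (a := b) hb (x₀ := v) (c := v + r / 4) (r := r / 2)
    (by linarith) hsum' hFd (fun z hz => by
      simp only [hF]
      rw [if_pos (show v < z.re from hz)]) T (x := x)
    (by simp only [x]; linarith) (by simp only [x]; linarith)
  have hnn : ∀ n, 0 ≤ LSeries.term b (x : ℂ) n := fun n => LSeries.term_nonneg (hb n) x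
  have hxS : x ∈ S := by
    refine ⟨by simp only [x, hr]; linarith [min_le_right ε (v - α)], ?_⟩
    have hs : Summable fun n => (LSeries.term b (x : ℂ) n).re := by
      refine summable_of_sum_le (fun n => (Complex.le_def.1 (hnn n)).1) (c := (F (x : ℂ)).re)
        fun T => ?_
      rw [← Complex.re_sum]
      exact (Complex.le_def.1 (hpart T)).1
    refine (Complex.summable_ofReal.2 hs).congr fun n => ?_
    exact Complex.ext (by simp) (by simpa using (Complex.le_def.1 (hnn n)).2)
  have := csInf_le hbdd hxS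
  simp only [x] at this
  linarith

/-- **A one-sided bound turns zeros of the denominator into zeros of the numerator.** -/
theorem numerator_eq_zero_of_one_sided {A : ℕ → ℝ} {γ C e : ℝ} (hγ : γ < 1) (he : e ≠ 0)
    (hbound : ∀ᶠ n : ℕ in atTop, e * A n ≤ C * (n : ℝ) ^ γ) {Gn Gd R : ℂ → ℂ}
    (hGn : DifferentiableOn ℂ Gn {z | γ < z.re}) (hGd : DifferentiableOn ℂ Gd {z | γ < z.re})
    (hR : DifferentiableOn ℂ R {z | γ < z.re}) (hGd0 : ∀ x : ℝ, γ < x → Gd x ≠ 0)
    (hid : ∀ z : ℂ, 1 < z.re → Gd z ≠ 0 ∧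
      HasSum (fun n : ℕ => (A n : ℂ) * (n : ℂ) ^ (-(z + 1))) (Gn z / Gd z + R z))
    {z : ℂ} (hz : γ < z.re) (h0 : Gd z = 0) : Gn z = 0 := by
  obtain ⟨N₀, hN₀⟩ := eventually_atTop.1 hbound
  set N := N₀ + 1
  set c : ℕ → ℂ := fun n => ((C * (n : ℝ) ^ γ - e * A n : ℝ) : ℂ) with hc
  set b : ℕ → ℂ := FA.Signs.removed c (Finset.range N) with hb
  have hb0 : 0 ≤ b := fun n => by
    simp only [hb, FA.Signs.removed, Pi.zero_apply]
    split_ifs with h
    · exact le_rfl
    · rw [hc, Complex.zero_le_real]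
      rw [Finset.mem_range, not_lt] at h
      linarith [hN₀ n (by omega)]
  set P : ℂ → ℂ := fun w => ∑ n ∈ Finset.range N, LSeries.term c w n with hP
  have hPd : Differentiable ℂ P := fun w =>
    DifferentiableAt.fun_sum fun n _ => FA.Signs.differentiable_term c n w
  have hser : ∀ w : ℂ, 2 < w.re → LSeriesHasSum b w
      (C * riemannZeta (w - γ) - e * (Gn (w - 1) / Gd (w - 1) + R (w - 1)) - P w) := by
    intro w hw
    obtain ⟨-, h⟩ := hid (w - 1) (by simp; linarith)
    have hre : 1 < (w - γ).re := by simp; linarith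
    have hζ : HasSum (fun n : ℕ => LSeries.term 1 (w - γ) n) (riemannZeta (w - γ)) := by
      rw [← LSeries_one_eq_riemannZeta hre]
      exact (LSeriesSummable_one_iff.2 hre).LSeriesHasSum
    have hcsum : LSeriesHasSum c w
        (C * riemannZeta (w - γ) - e * (Gn (w - 1) / Gd (w - 1) + R (w - 1))) := by
      refine ((hζ.mul_left (C : ℂ)).sub (h.mul_left (e : ℂ))).congr_fun fun n => ?_
      rw [sub_add_cancel]
      rcases Nat.eq_zero_or_pos n with rfl | hn
      · have hw0 : w ≠ 0 := fun h => by simp [h] at hw; linarith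
        simp [Complex.zero_cpow (neg_ne_zero.2 hw0)]
      have hn0 : (n : ℂ) ≠ 0 := Nat.cast_ne_zero.2 hn.ne'
      rw [LSeries.term_of_ne_zero hn.ne', LSeries.term_of_ne_zero hn.ne', Pi.one_apply, hc]
      push_cast
      rw [ofReal_cpow (Nat.cast_nonneg n), ofReal_natCast, cpow_neg, cpow_sub _ _ hn0,
        one_div_div]
      ring
    have := FA.Signs.hasSum_removed (Finset.range N) hcsum.LSeriesSummable
    rwa [hcsum.LSeries_eq] at this
  set Den : ℂ → ℂ := fun w => (w - 1 - γ) * Gd (w - 1) with hDen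
  set Num : ℂ → ℂ := fun w => Gd (w - 1) * (C * riemannZeta₁ (w - γ) -
    (w - 1 - γ) * (P w + e * R (w - 1))) - e * (w - 1 - γ) * Gn (w - 1) with hNum
  have hshift : ∀ {f : ℂ → ℂ}, DifferentiableOn ℂ f {z | γ < z.re} →
      DifferentiableOn ℂ (fun w => f (w - 1)) {w | γ + 1 < w.re} := fun {f} hf =>
    hf.comp (differentiable_id.sub_const 1).differentiableOn fun w hw => by
      show γ < (w - 1).re
      have : γ + 1 < w.re := hw
      simp
      linarith
  have hlin : DifferentiableOn ℂ (fun w : ℂ => w - 1 - γ) {w | γ + 1 < w.re} :=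
    ((differentiable_id.sub_const 1).sub_const _).differentiableOn
  have hDd : DifferentiableOn ℂ Den {w | γ + 1 < w.re} := hlin.mul (hshift hGd)
  have hNd : DifferentiableOn ℂ Num {w | γ + 1 < w.re} :=
    ((hshift hGd).mul ((((differentiable_riemannZeta₁.comp
      (differentiable_id.sub_const _)).const_mul _).differentiableOn).sub
        (hlin.mul (hPd.differentiableOn.add ((hshift hR).const_mul _))))).sub
      ((hlin.const_mul _).mul (hshift hGn))
  have hid' : ∀ w : ℂ, 2 < w.re → Den w * LSeries b w = Num w := by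
    intro w hw
    obtain ⟨hg, -⟩ := hid (w - 1) (by simp; linarith)
    have hne : w - γ ≠ 1 := fun h => by
      have := congrArg Complex.re h
      simp at this
      linarith
    have hne' : w - 1 - γ ≠ 0 := fun h => hne (by linear_combination h)
    rw [(hser w hw).LSeries_eq, riemannZeta_eq_inv_sub_mul hne,
      show w - γ - 1 = w - 1 - γ by ring]
    simp only [hDen, hNum]
    field_simp
    ring
  have hD0 : ∀ x : ℝ, γ + 1 < x → Den x ≠ 0 := by
    intro x hx
    simp only [hDen]
    refine mul_ne_zero ?_ ?_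
    · rw [← Complex.ofReal_one, ← Complex.ofReal_sub, ← Complex.ofReal_sub,
        Complex.ofReal_ne_zero]
      linarith
    · rw [← Complex.ofReal_one, ← Complex.ofReal_sub]
      exact hGd0 _ (by linarith)
  have h := (lSeriesSummable_of_nonneg hb0 (fun w hw => (hser w hw).LSeriesSummable) hid' hNd hDd
    hD0 (w := z + 1) (by simp; linarith)).2
  simp only [hDen, hNum, add_sub_cancel_right, h0, mul_zero, zero_mul, zero_sub] at h
  rcases mul_eq_zero.1 (neg_eq_zero.1 h.symm) with h1 | h1
  · rcases mul_eq_zero.1 h1 with h2 | h2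
    · exact absurd (Complex.ofReal_eq_zero.1 h2) he
    · exfalso
      rw [sub_eq_zero] at h2
      rw [h2] at hz
      simp at hz
  · exact h1

end FA.OneSided

end
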