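import Fermat.Agent.SieveConstant.MobiusSum
import Fermat.Agent.Root.SummaryVonKoch
import Mathlib.NumberTheory.LSeries.Dirichlet

/-!
# The Liouville function

Its Dirichlet series is `ζ (2 s) / ζ s`, and under the Riemann hypothesis its partial sums, and
those of `λ n / n` less their limit, are small.
-/

set_option autoImplicit false

noncomputable section

open Finset Filter
open scoped Topology ArithmeticFunction.Moebius LSeries.notation

namespace FA.OneSided

/-- `∑_{k ≤ n} μ k`. -/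
def moebiusSum (n : ℕ) : ℝ := ∑ k ∈ Icc 1 n, (μ k : ℝ)

/-- `∑_{k ≤ n} λ k`. -/
def liouvilleSum (n : ℕ) : ℝ := ∑ k ∈ Icc 1 n, (ArithmeticFunction.liouville k : ℝ)

/-- `∑_{k ≤ n} λ k / k`. -/
def turanSum (n : ℕ) : ℝ := ∑ k ∈ Icc 1 n, (ArithmeticFunction.liouville k : ℝ) / k

theorem abs_liouville_le_one (n : ℕ) : |(ArithmeticFunction.liouville n : ℝ)| ≤ 1 := by
  rcases eq_or_ne n 0 with rfl | hn
  · simp
  · simp [ArithmeticFunction.liouville_apply hn]

theorem norm_liouville_le_one (n : ℕ) : ‖(ArithmeticFunction.liouville n : ℂ)‖ ≤ 1 := by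
  rw [Complex.norm_intCast]
  exact abs_liouville_le_one n

theorem summable_liouville {s : ℂ} (hs : 1 < s.re) :
    LSeriesSummable (fun n => (ArithmeticFunction.liouville n : ℂ)) s :=
  LSeriesSummable_of_bounded_of_one_lt_re (fun n _ => norm_liouville_le_one n) hs

/-- The indicator of the squares. -/
def squareInd (n : ℕ) : ℂ := if IsSquare n then 1 else 0

theorem lSeriesHasSum_squareInd {s : ℂ} (hs : 1 < s.re) :
    LSeriesHasSum squareInd s (riemannZeta (2 * s)) := by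
  have h2 : 1 < (2 * s).re := by
    simp
    linarith
  have hinj : Function.Injective fun d : ℕ => d ^ 2 := fun a b h => by simpa using h
  have hsupp : ∀ n ∉ Set.range (fun d : ℕ => d ^ 2), LSeries.term squareInd s n = 0 := by
    intro n hn
    rcases eq_or_ne n 0 with rfl | h0
    · simp
    rw [LSeries.term_of_ne_zero h0, squareInd, if_neg, zero_div]
    rintro ⟨d, rfl⟩
    exact hn ⟨d, sq d⟩
  refine (hinj.hasSum_iff hsupp).1 ?_
  have h := (LSeriesSummable_one_iff.2 h2).LSeriesHasSum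
  rw [LSeries_one_eq_riemannZeta h2] at h
  refine h.congr_fun fun d => ?_
  rcases eq_or_ne d 0 with rfl | hd
  · simp
  rw [Function.comp_apply, LSeries.term_of_ne_zero (pow_ne_zero 2 hd), LSeries.term_of_ne_zero hd,
    squareInd, if_pos ⟨d, sq d⟩, Pi.one_apply, sq, Nat.cast_mul, Complex.natCast_mul_natCast_cpow,
    ← Complex.cpow_add _ _ (Nat.cast_ne_zero.2 hd), ← two_mul]

theorem convolution_squareInd {n : ℕ} (hn : n ≠ 0) :
    ((fun k => ((μ k : ℤ) : ℂ)) ⍟ squareInd) n = (ArithmeticFunction.liouville n : ℂ) := by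
  have h := FA.SieveConstant.sum_liouville_mul_eq (R := ℂ) (fun k => if k = n then 1 else 0) n
  simp only [mul_ite, mul_one, mul_zero, sum_ite_eq'] at h
  rw [if_pos (mem_Icc.2 ⟨Nat.one_le_iff_ne_zero.2 hn, le_rfl⟩)] at h
  rw [h, LSeries.convolution_def]
  simp only [squareInd, mul_ite, mul_one, mul_zero]
  rw [sum_sigma', ← sum_filter, ← sum_filter]
  refine sum_nbij' (fun x => ⟨Nat.sqrt x.2, x.1⟩) (fun y => (y.2, y.1 ^ 2)) (fun x hx => ?_)
    (fun y hy => ?_) (fun x hx => ?_) (fun y hy => ?_) fun x _ => rfl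
  · simp only [mem_filter, Nat.mem_divisorsAntidiagonal] at hx
    obtain ⟨⟨hmul, -⟩, d, hd⟩ := hx
    have hx2 : x.2 = d ^ 2 := by rw [hd, sq]
    simp only [mem_filter, mem_sigma, mem_Icc, hx2, Nat.sqrt_eq']
    have hx0 : x.1 ≠ 0 ∧ d ≠ 0 := by
      refine ⟨fun h0 => hn ?_, fun h0 => hn ?_⟩ <;> rw [← hmul]
      · rw [h0, zero_mul]
      · rw [hx2, h0]; simp
    have hd2 : 0 < d ^ 2 := pow_pos (Nat.pos_of_ne_zero hx0.2) 2
    have hle : d ^ 2 ≤ n := by
      rw [← hmul, hx2]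
      exact Nat.le_mul_of_pos_left _ (Nat.pos_of_ne_zero hx0.1)
    refine ⟨⟨⟨Nat.one_le_iff_ne_zero.2 hx0.2, (Nat.le_self_pow two_ne_zero d).trans hle⟩,
      Nat.one_le_iff_ne_zero.2 hx0.1, ?_⟩, ?_⟩
    · rw [Nat.le_div_iff_mul_le hd2, ← hx2, hmul]
    · rw [← hx2, mul_comm, hmul]
  · simp only [mem_filter, mem_sigma, mem_Icc] at hy
    simp only [mem_filter, Nat.mem_divisorsAntidiagonal]
    exact ⟨⟨by rw [mul_comm]; exact hy.2, hn⟩, y.1, sq y.1⟩
  · simp only [mem_filter] at hx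
    obtain ⟨d, hd⟩ := hx.2
    refine Prod.ext rfl ?_
    show Nat.sqrt x.2 ^ 2 = x.2
    rw [hd, Nat.sqrt_eq, sq]
  · simp [Nat.sqrt_eq']

theorem lSeries_liouville {s : ℂ} (hs : 1 < s.re) :
    LSeries (fun n => (ArithmeticFunction.liouville n : ℂ)) s =
      FA.VonKoch.invZeta s * riemannZeta (2 * s) := by
  obtain ⟨h1, h2⟩ := FA.VonKoch.moebius_series hs
  have h3 := lSeriesHasSum_squareInd hs
  rw [← LSeries_congr (fun hn => convolution_squareInd hn) s,
    LSeries_convolution' h1 h3.LSeriesSummable, h2, h3.LSeries_eq]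

theorem abs_moebiusSum_le_of_rh (h : RiemannHypothesis) {ε : ℝ} (hε : 0 < ε) :
    ∃ C : ℝ, 0 ≤ C ∧ ∀ n : ℕ, |moebiusSum n| ≤ C * (n : ℝ) ^ (1 / 2 + ε) := by
  obtain ⟨C, hC⟩ := FA.VonKoch.Summary.riemannHypothesis_iff_mertens.1 h ε hε
  refine ⟨max C 0, le_max_right _ _, fun n => ?_⟩
  rcases Nat.eq_zero_or_pos n with rfl | hn
  · simp only [moebiusSum, show Icc 1 0 = (∅ : Finset ℕ) from rfl, sum_empty, abs_zero]
    positivity
  have h1 := hC n (Nat.one_le_cast.2 hn)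
  rw [Nat.floor_natCast] at h1
  exact h1.trans (mul_le_mul_of_nonneg_right (le_max_left _ _) (by positivity))

theorem abs_liouvilleSum_le_of_rh (h : RiemannHypothesis) {ε : ℝ} (hε : 0 < ε) :
    ∃ C : ℝ, 0 ≤ C ∧ ∀ n : ℕ, |liouvilleSum n| ≤ C * (n : ℝ) ^ (1 / 2 + ε) := by
  obtain ⟨C, hC0, hC⟩ := abs_moebiusSum_le_of_rh h hε
  have hp : -(2 * (1 / 2 + ε)) < -1 := by linarith
  refine ⟨C * ∑' d : ℕ, (d : ℝ) ^ (-(2 * (1 / 2 + ε))),
    mul_nonneg hC0 (tsum_nonneg fun d => by positivity), fun n => ?_⟩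
  rw [liouvilleSum, FA.SieveConstant.sum_liouville_eq]
  refine (abs_sum_le_sum_abs _ _).trans
    ((sum_le_sum (g := fun d : ℕ =>
      C * ((n : ℝ) ^ (1 / 2 + ε) * (d : ℝ) ^ (-(2 * (1 / 2 + ε))))) fun d hd => ?_).trans ?_)
  · have hd0 : (0 : ℝ) < d := Nat.cast_pos.2 (mem_Icc.1 hd).1
    refine (hC (n / d ^ 2)).trans (mul_le_mul_of_nonneg_left ?_ hC0)
    calc ((n / d ^ 2 : ℕ) : ℝ) ^ (1 / 2 + ε) ≤ ((n : ℝ) / (d : ℝ) ^ 2) ^ (1 / 2 + ε) := by
          refine Real.rpow_le_rpow (Nat.cast_nonneg _) ?_ (by linarith)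
          exact Nat.cast_div_le.trans_eq (by push_cast; rfl)
      _ = _ := by
          rw [Real.div_rpow (Nat.cast_nonneg n) (by positivity), ← Real.rpow_natCast (d : ℝ) 2,
            ← Real.rpow_mul hd0.le, div_eq_mul_inv, ← Real.rpow_neg hd0.le]
          norm_num
  · rw [← mul_sum, ← mul_sum, mul_comm ((n : ℝ) ^ _), ← mul_assoc]
    exact mul_le_mul_of_nonneg_right (mul_le_mul_of_nonneg_left
      ((Real.summable_nat_rpow.2 hp).sum_le_tsum _ fun d _ => by positivity) hC0) (by positivity)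

theorem turanSum_eq (N : ℕ) :
    turanSum N = (∑ k ∈ range (N + 1), liouvilleSum k / ((k : ℝ) * (k + 1))) +
      liouvilleSum N / ((N : ℝ) + 1) := by
  induction N with
  | zero => simp [turanSum, liouvilleSum]
  | succ N ih =>
    rw [sum_range_succ, turanSum, sum_Icc_succ_top (by omega), ← turanSum, ih]
    have e : liouvilleSum (N + 1) =
        liouvilleSum N + (ArithmeticFunction.liouville (N + 1) : ℝ) :=
      sum_Icc_succ_top (by omega) _
    rw [e]
    push_cast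
    field_simp
    ring

theorem abs_turanSum_sub_le_of_rh (h : RiemannHypothesis) {η : ℝ} (hη : 0 < η) (hη2 : η ≤ 1 / 8) :
    ∃ l C : ℝ, 0 ≤ C ∧ ∀ n : ℕ, 0 < n → |turanSum n - l| ≤ C * (n : ℝ) ^ (-1 / 2 + 2 * η) := by
  obtain ⟨C, hC0, hC⟩ := abs_liouvilleSum_le_of_rh h hη
  set c : ℕ → ℝ := fun k => liouvilleSum k / ((k : ℝ) * (k + 1)) with hc
  have hck : ∀ k : ℕ, |c k| ≤ C * (k : ℝ) ^ (-3 / 2 + η) := by
    intro k
    rcases Nat.eq_zero_or_pos k with rfl | hk
    · simp [hc, Real.zero_rpow (show (-3 : ℝ) / 2 + η ≠ 0 by linarith)]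
    have hk0 : (0 : ℝ) < k := Nat.cast_pos.2 hk
    rw [hc, abs_div, abs_of_pos (show 0 < (k : ℝ) * (k + 1) by positivity),
      div_le_iff₀ (by positivity), show (-3 : ℝ) / 2 + η = (1 / 2 + η) - (2 : ℕ) by push_cast; ring,
      Real.rpow_sub hk0, Real.rpow_natCast]
    refine (hC k).trans ?_
    rw [mul_assoc, div_mul_eq_mul_div]
    refine mul_le_mul_of_nonneg_left ?_ hC0
    rw [le_div_iff₀ (by positivity)]
    exact mul_le_mul_of_nonneg_left (by nlinarith) (by positivity)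
  have hcs : Summable c := Summable.of_norm_bounded
    ((Real.summable_nat_rpow.2 (by linarith : (-3 : ℝ) / 2 + η < -1)).mul_left C) hck
  set Z : ℝ := ∑' k : ℕ, (k : ℝ) ^ (-1 - η) with hZ
  have hZs : Summable fun k : ℕ => (k : ℝ) ^ (-1 - η) := Real.summable_nat_rpow.2 (by linarith)
  have hZ0 : 0 ≤ Z := tsum_nonneg fun k => by positivity
  refine ⟨∑' k, c k, C * (Z + 1), by positivity, fun n hn => ?_⟩
  have hn0 : (0 : ℝ) < n := Nat.cast_pos.2 hn
  rw [turanSum_eq, ← hcs.sum_add_tsum_nat_add (n + 1), mul_add, mul_one, add_mul,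
    show (∑ k ∈ range (n + 1), c k) + liouvilleSum n / ((n : ℝ) + 1) -
      (∑ k ∈ range (n + 1), c k + ∑' k, c (k + (n + 1))) =
      -∑' k, c (k + (n + 1)) + liouvilleSum n / ((n : ℝ) + 1) by ring]
  refine (abs_add_le _ _).trans (add_le_add ?_ ?_)
  · rw [abs_neg]
    have hsZ : Summable fun k : ℕ => C * (n : ℝ) ^ (-1 / 2 + 2 * η) *
        ((k + (n + 1) : ℕ) : ℝ) ^ (-1 - η) :=
      ((summable_nat_add_iff (n + 1)).2 hZs).mul_left _
    have hle : ∀ k : ℕ, ‖c (k + (n + 1))‖ ≤ C * (n : ℝ) ^ (-1 / 2 + 2 * η) *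
        ((k + (n + 1) : ℕ) : ℝ) ^ (-1 - η) := by
      intro k
      refine (hck _).trans ?_
      rw [mul_assoc]
      refine mul_le_mul_of_nonneg_left ?_ hC0
      have hm : (n : ℝ) ≤ ((k + (n + 1) : ℕ) : ℝ) := Nat.cast_le.2 (by omega)
      rw [show (-3 : ℝ) / 2 + η = (-1 / 2 + 2 * η) + (-1 - η) by ring,
        Real.rpow_add (hn0.trans_le hm)]
      exact mul_le_mul_of_nonneg_right (Real.rpow_le_rpow_of_nonpos hn0 hm (by linarith))
        (by positivity)
    refine (tsum_of_norm_bounded hsZ.hasSum hle).trans ?_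
    rw [tsum_mul_left, show C * Z * (n : ℝ) ^ (-1 / 2 + 2 * η) =
      C * (n : ℝ) ^ (-1 / 2 + 2 * η) * Z by ring]
    refine mul_le_mul_of_nonneg_left ?_ (by positivity)
    rw [hZ, ← hZs.sum_add_tsum_nat_add (n + 1)]
    exact le_add_of_nonneg_left (sum_nonneg fun k _ => by positivity)
  · rw [abs_div, abs_of_pos (show (0 : ℝ) < n + 1 by positivity), div_le_iff₀ (by positivity)]
    refine (hC n).trans ?_
    rw [mul_assoc]
    refine mul_le_mul_of_nonneg_left ?_ hC0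
    have h1 : (n : ℝ) ^ (1 / 2 + η) ≤ (n : ℝ) ^ (-1 / 2 + 2 * η) * n := by
      rw [← Real.rpow_add_one hn0.ne']
      exact Real.rpow_le_rpow_of_exponent_le (Nat.one_le_cast.2 hn) (by linarith)
    exact h1.trans (mul_le_mul_of_nonneg_left (by linarith) (by positivity))

end FA.OneSided

end
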