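import Fermat.Agent.OneSided.Defect
import Fermat.Agent.OneSided.Landau
import Fermat.Agent.OneSided.Liouville
import Fermat.Agent.PsiOscillation.Landau
import Fermat.Agent.ZeroFreeRegion.LowerBound
import Mathlib.Analysis.Complex.RemovableSingularity
import Mathlib.NumberTheory.Harmonic.Bounds

/-!
# The one-sided criteria

Landau's theorem applied to the partial sums of `μ n`, of `λ n` and of `λ n / n`.
-/

set_option autoImplicit false

noncomputable section

open Filter Set
open scoped Topology ArithmeticFunction.Moebius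

namespace FA.OneSided

theorem zeta₁_eq_zero_of_zeta {s : ℂ} (hs1 : s ≠ 1) (h : riemannZeta s = 0) :
    riemannZeta₁ s = 0 := by
  rw [riemannZeta_eq_inv_sub_mul hs1, mul_eq_zero] at h
  exact h.resolve_left (inv_ne_zero (sub_ne_zero.2 hs1))

theorem riemannHypothesis_of_zero_free
    (H : ∀ s : ℂ, 1 / 2 < s.re → s.re < 1 → riemannZeta s ≠ 0) : RiemannHypothesis := by
  refine FA.VonKoch.Summary.riemannHypothesis_iff_mertens.2
    ((FA.VonKoch.Summary.zeroFree_iff_mertens le_rfl (by norm_num)).1 fun w hw _ => ?_)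
  rcases lt_or_ge w.re 1 with hlt | hge
  · exact H w hw hlt
  · exact riemannZeta_ne_zero_of_one_le_re hge

theorem zeta₁_ne_zero_of_one_lt {s : ℂ} (hs : 1 < s.re) : riemannZeta₁ s ≠ 0 :=
  FA.ZeroFree.riemannZeta₁_ne_zero_of_one_le hs.le

theorem ne_zero_of_re_pos {z : ℂ} (hz : 0 < z.re) : z ≠ 0 := fun h => by simp [h] at hz

theorem two_mul_sub_one_ne_zero {z : ℂ} (hz : 1 < 2 * z.re) : 2 * z - 1 ≠ 0 := fun h => by
  have := congrArg Complex.re h
  simp at this
  linarith

theorem norm_sum_le_card (f : ℕ → ℂ) (hf : ∀ k, ‖f k‖ ≤ 1) (n : ℕ) :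
    ‖summatory f n‖ ≤ 1 * (n : ℝ) ^ (1 : ℝ) := by
  refine (norm_sum_le _ _).trans ((Finset.sum_le_sum fun k _ => hf k).trans ?_)
  simp

theorem moebius_zero_free {α C e : ℝ} (hα : 0 < α) (hα1 : α < 1) (he : e ≠ 0)
    (h : ∀ᶠ n : ℕ in atTop, e * moebiusSum n ≤ C * (n : ℝ) ^ α) {s : ℂ} (hs : α < s.re)
    (hs1 : s.re < 1) : riemannZeta s ≠ 0 := by
  intro h0
  set a : ℕ → ℂ := fun n => ((μ n : ℤ) : ℂ) with ha
  have hA : ∀ n : ℕ, 0 < n → ‖summatory a n‖ ≤ 1 * (n : ℝ) ^ (1 : ℝ) := fun n _ =>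
    norm_sum_le_card a (fun k => by
      rw [ha, Complex.norm_intCast]
      exact_mod_cast ArithmeticFunction.abs_moebius_le_one) n
  have hR : DifferentiableOn ℂ (fun z => defect a z / z) {z | α < z.re} :=
    ((differentiableOn_defect hA zero_le_one).mono fun z (hz : α < z.re) =>
      show 1 - 1 < z.re by linarith).div differentiableOn_id
        fun z (hz : α < z.re) => ne_zero_of_re_pos (hα.trans hz)
  have hz := numerator_eq_zero_of_one_sided (Gn := fun z => z - 1)
    (Gd := fun z => z * riemannZeta₁ z) hα1 he h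
    (differentiable_id.sub_const 1).differentiableOn
    (differentiable_id.mul differentiable_riemannZeta₁).differentiableOn hR
    (fun x hx => mul_ne_zero (Complex.ofReal_ne_zero.2 (hα.trans hx).ne')
      (FA.PsiOscillation.riemannZeta₁_real_ne_zero (hα.trans hx)))
    (fun z hz => by
      have hz0 : z ≠ 0 := ne_zero_of_re_pos (by linarith)
      have hζ := zeta₁_ne_zero_of_one_lt hz
      refine ⟨mul_ne_zero hz0 hζ, ?_⟩
      obtain ⟨hsum, hval⟩ := FA.VonKoch.moebius_series hz
      have h1 := hasSum_summatory hA zero_le_one le_rfl hz hsum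
      rw [hval, FA.VonKoch.invZeta, add_div, div_div, mul_comm (riemannZeta₁ z)] at h1
      refine h1.congr_fun fun n => ?_
      simp [summatory, moebiusSum, ha])
    (z := s) hs (by simp [zeta₁_eq_zero_of_zeta (fun e => by simp [e] at hs1) h0])
  rw [sub_eq_zero] at hz
  simp [hz] at hs1

theorem liouville_zero_free {α C e : ℝ} (hα : 1 / 2 ≤ α) (hα1 : α < 1) (he : e ≠ 0)
    (h : ∀ᶠ n : ℕ in atTop, e * liouvilleSum n ≤ C * (n : ℝ) ^ α) {s : ℂ} (hs : α < s.re)
    (hs1 : s.re < 1) : riemannZeta s ≠ 0 := by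
  intro h0
  set a : ℕ → ℂ := fun n => (ArithmeticFunction.liouville n : ℂ) with ha
  have hA : ∀ n : ℕ, 0 < n → ‖summatory a n‖ ≤ 1 * (n : ℝ) ^ (1 : ℝ) := fun n _ =>
    norm_sum_le_card a norm_liouville_le_one n
  have hα0 : 0 < α := by linarith
  have hR : DifferentiableOn ℂ (fun z => defect a z / z) {z | α < z.re} :=
    ((differentiableOn_defect hA zero_le_one).mono fun z (hz : α < z.re) =>
      show 1 - 1 < z.re by linarith).div differentiableOn_id
        fun z (hz : α < z.re) => ne_zero_of_re_pos (hα0.trans hz)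
  have hz := numerator_eq_zero_of_one_sided
    (Gn := fun z => riemannZeta₁ (2 * z) * (z - 1))
    (Gd := fun z => z * (2 * z - 1) * riemannZeta₁ z) hα1 he h
    (((differentiable_riemannZeta₁.comp (differentiable_id.const_mul 2)).mul
      (differentiable_id.sub_const 1)).differentiableOn)
    (((differentiable_id.mul ((differentiable_id.const_mul 2).sub_const 1)).mul
      differentiable_riemannZeta₁).differentiableOn) hR
    (fun x hx => mul_ne_zero (mul_ne_zero (Complex.ofReal_ne_zero.2 (hα0.trans hx).ne')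
      (two_mul_sub_one_ne_zero (by simp; linarith)))
      (FA.PsiOscillation.riemannZeta₁_real_ne_zero (hα0.trans hx)))
    (fun z hz => by
      have hz0 : z ≠ 0 := ne_zero_of_re_pos (by linarith)
      have hζ := zeta₁_ne_zero_of_one_lt hz
      have h2 : 2 * z - 1 ≠ 0 := two_mul_sub_one_ne_zero (by linarith)
      refine ⟨mul_ne_zero (mul_ne_zero hz0 h2) hζ, ?_⟩
      have h1 := hasSum_summatory hA zero_le_one le_rfl hz (summable_liouville hz)
      have hval : LSeries a z =
          riemannZeta₁ (2 * z) * (z - 1) / ((2 * z - 1) * riemannZeta₁ z) := by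
        rw [ha, lSeries_liouville hz, FA.VonKoch.invZeta,
          riemannZeta_eq_inv_sub_mul (sub_ne_zero.1 h2)]
        field_simp
      rw [hval, add_div, div_div,
        show (2 * z - 1) * riemannZeta₁ z * z = z * (2 * z - 1) * riemannZeta₁ z by ring] at h1
      refine h1.congr_fun fun n => ?_
      simp [summatory, liouvilleSum, ha])
    (z := s) hs (by simp [zeta₁_eq_zero_of_zeta (fun e => by simp [e] at hs1) h0])
  rcases mul_eq_zero.1 hz with hz | hz
  · exact zeta₁_ne_zero_of_one_lt (show 1 < (2 * s).re by simp; linarith) hz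
  · rw [sub_eq_zero] at hz
    simp [hz] at hs1

/-- The coefficients `λ n / n`. -/
def turanCoeff (n : ℕ) : ℂ := (ArithmeticFunction.liouville n : ℂ) / n

theorem summatory_turanCoeff (n : ℕ) : summatory turanCoeff n = (turanSum n : ℂ) := by
  simp [summatory, turanCoeff, turanSum]

theorem norm_summatory_turanCoeff_le (n : ℕ) (hn : 0 < n) :
    ‖summatory turanCoeff n‖ ≤ 5 * (n : ℝ) ^ (1 / 4 : ℝ) := by
  have hn1 : (1 : ℝ) ≤ n := Nat.one_le_cast.2 hn
  have h1 : ‖summatory turanCoeff n‖ ≤ (harmonic n : ℝ) := by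
    rw [harmonic_eq_sum_Icc]
    push_cast
    refine (norm_sum_le _ _).trans (Finset.sum_le_sum fun k _ => ?_)
    rw [turanCoeff, norm_div, Complex.norm_natCast, div_eq_mul_inv]
    exact mul_le_of_le_one_left (by positivity) (norm_liouville_le_one k)
  refine h1.trans ((harmonic_le_one_add_log n).trans ?_)
  have h2 := Real.log_le_rpow_div (Nat.cast_nonneg n) (show (0 : ℝ) < 1 / 4 by norm_num)
  have h3 : 1 ≤ (n : ℝ) ^ (1 / 4 : ℝ) := Real.one_le_rpow hn1 (by norm_num)
  linarith

/-- The holomorphic part for `λ n / n`. -/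
def turanReg : ℂ → ℂ := dslope (defect turanCoeff) 0

theorem differentiableOn_turanReg : DifferentiableOn ℂ turanReg {z | -(3 / 4 : ℝ) < z.re} := by
  have h : {z : ℂ | -(3 / 4 : ℝ) < z.re} ∈ 𝓝 (0 : ℂ) :=
    (isOpen_lt continuous_const Complex.continuous_re).mem_nhds
      (show -(3 / 4 : ℝ) < (0 : ℂ).re by norm_num)
  exact (Complex.differentiableOn_dslope h).2
    ((differentiableOn_defect norm_summatory_turanCoeff_le (by norm_num)).mono
      fun z (hz : -(3 / 4 : ℝ) < z.re) => show (1 / 4 : ℝ) - 1 < z.re by linarith)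

theorem hasSum_turanSum {z : ℂ} (hz : 1 < z.re) :
    (2 * z + 1) * riemannZeta₁ (z + 1) ≠ 0 ∧
      HasSum (fun n : ℕ => (turanSum n : ℂ) * (n : ℂ) ^ (-(z + 1)))
        (riemannZeta₁ (2 * z + 2) / ((2 * z + 1) * riemannZeta₁ (z + 1)) + turanReg z) := by
  have hz0 : z ≠ 0 := ne_zero_of_re_pos (by linarith)
  have hz1 : 1 < (z + 1).re := by simp; linarith
  have hζ := zeta₁_ne_zero_of_one_lt hz1
  have h2 : 2 * z + 1 ≠ 0 := fun h => two_mul_sub_one_ne_zero (z := z + 1) (by linarith)
    (by linear_combination h)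
  have hterm : ∀ n, LSeries.term turanCoeff z n =
      LSeries.term (fun n => (ArithmeticFunction.liouville n : ℂ)) (z + 1) n := by
    intro n
    rcases eq_or_ne n 0 with rfl | hn
    · simp
    rw [LSeries.term_of_ne_zero hn, LSeries.term_of_ne_zero hn, turanCoeff, div_div,
      Complex.cpow_add _ _ (Nat.cast_ne_zero.2 hn), Complex.cpow_one, mul_comm]
  have hsum : LSeriesSummable turanCoeff z := (summable_liouville hz1).congr fun n => (hterm n).symm
  have hval : LSeries turanCoeff z =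
      riemannZeta₁ (2 * z + 2) * z / ((2 * z + 1) * riemannZeta₁ (z + 1)) := by
    rw [show LSeries turanCoeff z =
        LSeries (fun n => (ArithmeticFunction.liouville n : ℂ)) (z + 1) from tsum_congr hterm,
      lSeries_liouville hz1, FA.VonKoch.invZeta, riemannZeta_eq_inv_sub_mul
        (fun h => h2 (by linear_combination h)), show 2 * (z + 1) - 1 = 2 * z + 1 by ring,
      show 2 * (z + 1) = 2 * z + 2 by ring]
    field_simp
    ring
  refine ⟨mul_ne_zero h2 hζ, ?_⟩
  have h1 := hasSum_summatory norm_summatory_turanCoeff_le (by norm_num) (by norm_num) hz hsum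
  rw [hval] at h1
  have e : turanReg z = defect turanCoeff z / z := by
    rw [turanReg, dslope_of_ne _ hz0, slope_def_field, defect_zero, sub_zero, sub_zero]
  rw [e]
  convert h1 using 1
  · funext n
    rw [summatory_turanCoeff]
  · field_simp

theorem turan_zero_free {α C e : ℝ} (hα : 1 / 2 ≤ α) (he : e ≠ 0)
    (h : ∀ᶠ n : ℕ in atTop, e * turanSum n ≤ C * (n : ℝ) ^ (α - 1)) {s : ℂ} (hs : α < s.re)
    (hs1 : s.re < 1) : riemannZeta s ≠ 0 := by
  intro h0
  have hz := numerator_eq_zero_of_one_sided (Gn := fun z => riemannZeta₁ (2 * z + 2))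
    (Gd := fun z => (2 * z + 1) * riemannZeta₁ (z + 1)) (R := turanReg)
    (show α - 1 < 1 by linarith) he h
    (differentiable_riemannZeta₁.comp
      ((differentiable_id.const_mul 2).add_const 2)).differentiableOn
    (((differentiable_id.const_mul 2).add_const 1).mul
      (differentiable_riemannZeta₁.comp (differentiable_id.add_const 1))).differentiableOn
    (differentiableOn_turanReg.mono fun z (hz : α - 1 < z.re) =>
      show -(3 / 4 : ℝ) < z.re by linarith)
    (fun x hx => mul_ne_zero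
      (fun h => two_mul_sub_one_ne_zero (z := (x : ℂ) + 1) (by simp; linarith)
        (by linear_combination h))
      (by
        rw [← Complex.ofReal_one, ← Complex.ofReal_add]
        exact FA.PsiOscillation.riemannZeta₁_real_ne_zero (by linarith)))
    (fun z hz => hasSum_turanSum hz)
    (z := s - 1) (by simp; linarith)
    (by simp [zeta₁_eq_zero_of_zeta (fun e => by simp [e] at hs1) h0])
  exact zeta₁_ne_zero_of_one_lt (show 1 < (2 * (s - 1) + 2).re by simp; linarith) hz

/-- Under the Riemann hypothesis `∑ λ n / n = 0`. -/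
theorem turan_limit_eq_zero {l C η : ℝ} (hη : 0 < η) (hη2 : η ≤ 1 / 8)
    (h : ∀ n : ℕ, 0 < n → |turanSum n - l| ≤ C * (n : ℝ) ^ (-1 / 2 + 2 * η)) : l = 0 := by
  set u : ℕ → ℂ := fun n => ((turanSum n - l : ℝ) : ℂ) with hu
  set U : Set ℂ := {z | -(1 / 8 : ℝ) < z.re} with hU
  have hUo : IsOpen U := isOpen_lt continuous_const Complex.continuous_re
  have habs : LSeries.abscissaOfAbsConv u ≤ ((-1 / 2 + 2 * η + 1 : ℝ) : EReal) := by
    refine LSeries.abscissaOfAbsConv_le_of_le_const_mul_rpow ⟨C, fun n hn => ?_⟩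
    rw [hu, Complex.norm_real, Real.norm_eq_abs]
    exact h n (Nat.pos_of_ne_zero hn)
  have hin : ∀ z ∈ U, LSeries.abscissaOfAbsConv u < ((z + 1).re : EReal) := fun z hz => by
    refine habs.trans_lt (EReal.coe_lt_coe_iff.2 ?_)
    have : -(1 / 8 : ℝ) < z.re := hz
    simp
    linarith
  have hS : DifferentiableOn ℂ (fun z => LSeries u (z + 1)) U := fun z hz =>
    (((LSeries_differentiableOn u).differentiableAt
      ((Complex.isOpen_re_gt_EReal _).mem_nhds (hin z hz))).fun_comp' z
        (differentiableAt_id.add_const 1)).differentiableWithinAt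
  have hζ : DifferentiableOn ℂ (fun z : ℂ => riemannZeta₁ (z + 1)) U :=
    (differentiable_riemannZeta₁.comp (differentiable_id.add_const 1)).differentiableOn
  have hw : DifferentiableOn ℂ (fun z : ℂ => (2 * z + 1) * riemannZeta₁ (z + 1)) U :=
    (((differentiable_id.const_mul 2).add_const 1).differentiableOn).mul hζ
  have hP : DifferentiableOn ℂ (fun z => (z * LSeries u (z + 1) + l * riemannZeta₁ (z + 1)) *
      ((2 * z + 1) * riemannZeta₁ (z + 1)) - z * (riemannZeta₁ (2 * z + 2) +
        (2 * z + 1) * riemannZeta₁ (z + 1) * turanReg z)) U :=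
    (((differentiableOn_id.mul hS).add (hζ.const_mul _)).mul hw).sub
      (differentiableOn_id.mul ((differentiable_riemannZeta₁.comp
        ((differentiable_id.const_mul 2).add_const 2)).differentiableOn.add
          (hw.mul (differentiableOn_turanReg.mono fun z (hz : -(1 / 8 : ℝ) < z.re) =>
            show -(3 / 4 : ℝ) < z.re by linarith))))
  have h2 : (2 : ℂ) ∈ U := show -(1 / 8 : ℝ) < (2 : ℂ).re by norm_num
  have h00 : (0 : ℂ) ∈ U := show -(1 / 8 : ℝ) < (0 : ℂ).re by norm_num
  have heq := (hP.analyticOnNhd hUo).eqOn_of_preconnected_of_eventuallyEq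
    (analyticOnNhd_const (v := (0 : ℂ))) (convex_halfSpace_re_gt _).isPreconnected h2 (by
      filter_upwards [hUo.mem_nhds h2, (isOpen_lt continuous_const Complex.continuous_re).mem_nhds
        (show (2 : ℂ) ∈ {z : ℂ | (1 : ℝ) < z.re} from show (1 : ℝ) < (2 : ℂ).re by norm_num)]
        with z hzU (hz : 1 < z.re)
      obtain ⟨hne, hT⟩ := hasSum_turanSum hz
      have hz1 : 1 < (z + 1).re := by simp; linarith
      have hz0 : z ≠ 0 := ne_zero_of_re_pos (by linarith)
      have hu' : HasSum (fun n => LSeries.term u (z + 1) n) (LSeries u (z + 1)) :=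
        (LSeriesSummable_of_abscissaOfAbsConv_lt_re (hin z hzU)).LSeriesHasSum
      have hone : HasSum (fun n => LSeries.term 1 (z + 1) n) (LSeries 1 (z + 1)) :=
        (LSeriesSummable_one_iff.2 hz1).LSeriesHasSum
      rw [LSeries_one_eq_riemannZeta hz1] at hone
      have hsum := (hu'.add (hone.mul_left (l : ℂ))).unique (hT.congr_fun fun n => ?_)
      · rw [riemannZeta_eq_inv_sub_mul (fun e => hz0 (by linear_combination e)),
          add_sub_cancel_right] at hsum
        have hc : riemannZeta₁ (2 * z + 2) + (2 * z + 1) * riemannZeta₁ (z + 1) * turanReg z =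
            ((2 * z + 1) * riemannZeta₁ (z + 1)) *
              (riemannZeta₁ (2 * z + 2) / ((2 * z + 1) * riemannZeta₁ (z + 1)) + turanReg z) := by
          rw [mul_add, mul_div_cancel₀ _ hne]
        rw [hc, ← hsum]
        field_simp
        ring
      · rcases eq_or_ne n 0 with rfl | hn
        · simp [turanSum]
        rw [LSeries.term_of_ne_zero hn, LSeries.term_of_ne_zero hn, Pi.one_apply, hu,
          Complex.cpow_neg]
        push_cast
        ring) h00
  simp only [zero_add, mul_zero, zero_mul, riemannZeta₁_one, sub_zero, mul_one,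
    Complex.ofReal_eq_zero] at heq
  exact heq

theorem abs_turanSum_le_of_rh (h : RiemannHypothesis) {ε : ℝ} (hε : 0 < ε) :
    ∃ C : ℝ, ∀ᶠ n : ℕ in atTop, |turanSum n| ≤ C * (n : ℝ) ^ (-1 / 2 + ε) := by
  set η : ℝ := min (ε / 2) (1 / 8)
  have hη : 0 < η := lt_min (by linarith) (by norm_num)
  obtain ⟨l, C, hC0, hC⟩ := abs_turanSum_sub_le_of_rh h hη (min_le_right _ _)
  obtain rfl := turan_limit_eq_zero hη (min_le_right _ _) hC
  refine ⟨C, (eventually_ge_atTop 1).mono fun n hn => ?_⟩
  have h1 := hC n hn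
  rw [sub_zero] at h1
  refine h1.trans (mul_le_mul_of_nonneg_left
    (Real.rpow_le_rpow_of_exponent_le (Nat.one_le_cast.2 hn) ?_) hC0)
  linarith [min_le_left (ε / 2) (1 / 8)]

/-- Zero-free half planes for all exponents give the Riemann hypothesis. -/
theorem riemannHypothesis_of_forall {P : ℝ → Prop} (h : ∀ ε : ℝ, 0 < ε → P ε)
    (hP : ∀ ε : ℝ, 0 < ε → 1 / 2 + ε < 1 → P ε → ∀ s : ℂ, 1 / 2 + ε < s.re → s.re < 1 →
      riemannZeta s ≠ 0) : RiemannHypothesis := by
  refine riemannHypothesis_of_zero_free fun s hs hs1 => ?_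
  exact hP ((s.re - 1 / 2) / 2) (by linarith) (by linarith) (h _ (by linarith)) s (by linarith) hs1

theorem mul_le_abs_bound {e x B : ℝ} (h : |x| ≤ B) : e * x ≤ |e| * B :=
  (le_abs_self _).trans (by rw [abs_mul]; exact mul_le_mul_of_nonneg_left h (abs_nonneg _))

theorem rh_iff_moebius {e : ℝ} (he : e ≠ 0) : RiemannHypothesis ↔
    ∀ ε : ℝ, 0 < ε → ∃ C : ℝ, ∀ᶠ n : ℕ in atTop, e * moebiusSum n ≤ C * (n : ℝ) ^ (1 / 2 + ε) := by
  refine ⟨fun h ε hε => ?_, fun h => riemannHypothesis_of_forall h fun ε hε hε1 ⟨C, hC⟩ s hs hs1 =>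
    moebius_zero_free (by linarith) hε1 he hC hs hs1⟩
  obtain ⟨C, -, hC⟩ := abs_moebiusSum_le_of_rh h hε
  exact ⟨|e| * C, Eventually.of_forall fun n => (mul_le_abs_bound (hC n)).trans_eq (by ring)⟩

theorem rh_iff_liouville {e : ℝ} (he : e ≠ 0) : RiemannHypothesis ↔
    ∀ ε : ℝ, 0 < ε → ∃ C : ℝ,
      ∀ᶠ n : ℕ in atTop, e * liouvilleSum n ≤ C * (n : ℝ) ^ (1 / 2 + ε) := by
  refine ⟨fun h ε hε => ?_, fun h => riemannHypothesis_of_forall h fun ε hε hε1 ⟨C, hC⟩ s hs hs1 =>
    liouville_zero_free (by linarith) hε1 he hC hs hs1⟩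
  obtain ⟨C, -, hC⟩ := abs_liouvilleSum_le_of_rh h hε
  exact ⟨|e| * C, Eventually.of_forall fun n => (mul_le_abs_bound (hC n)).trans_eq (by ring)⟩

theorem rh_iff_turan {e : ℝ} (he : e ≠ 0) : RiemannHypothesis ↔
    ∀ ε : ℝ, 0 < ε → ∃ C : ℝ,
      ∀ᶠ n : ℕ in atTop, e * turanSum n ≤ C * (n : ℝ) ^ (-1 / 2 + ε) := by
  refine ⟨fun h ε hε => ?_, fun h => riemannHypothesis_of_forall h fun ε hε hε1 ⟨C, hC⟩ s hs hs1 =>
    turan_zero_free (α := 1 / 2 + ε) (C := C) (by linarith) he (hC.mono fun n hn => ?_) hs hs1⟩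
  · obtain ⟨C, hC⟩ := abs_turanSum_le_of_rh h hε
    exact ⟨|e| * C, hC.mono fun n hn => (mul_le_abs_bound hn).trans_eq (by ring)⟩
  · rwa [show (1 / 2 : ℝ) + ε - 1 = -1 / 2 + ε by ring]

end FA.OneSided

end
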